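import Fermat.Agent.FreeGroupTheorems.Paths

/-!
# M. Hall, Malcev and Howson

The partial permutations of a finite set of cosets given by the letters extend to permutations.
-/

set_option autoImplicit false
set_option linter.style.haveILetI false

noncomputable section


namespace FA.FreeGroupTheorems

variable {α : Type*}

open scoped Classical in
/-- **M. Hall's theorem.** -/
theorem exists_finiteIndex {H : Subgroup (FreeGroup α)} (hfg : H.FG) {g : FreeGroup α}
    (hg : g ∉ H) : ∃ K : Subgroup (FreeGroup α), K.FiniteIndex ∧ H ≤ K ∧ g ∉ K := by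
  let Q := FreeGroup α ⧸ H
  set b : Q := ((1 : FreeGroup α) : Q)
  have hb : ∀ h : FreeGroup α, h • b = b ↔ h ∈ H := fun h => by
    rw [← MulAction.mem_stabilizer_iff, MulAction.stabilizer_quotient]
  obtain ⟨E, hEfin, hE⟩ := exists_finite_edges b hfg fun h hh => (hb h).2 hh
  set E' := E ∪ edges b g.toWord
  set S : Set Q := insert b ((fun e => letter e.1 • e.2) '' E' ∪ Prod.snd '' E')
  have hEf' : E'.Finite := hEfin.union (edges_finite _ _)
  haveI : Finite S := (((hEf'.image _).union (hEf'.image _)).insert b).to_subtype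
  let p : α → S → Prop := fun a y => FreeGroup.of a • (y : Q) ∈ S
  let q : α → S → Prop := fun a y => (FreeGroup.of a)⁻¹ • (y : Q) ∈ S
  let e : ∀ a, {y // p a y} ≃ {y // q a y} := fun a =>
    { toFun := fun y => ⟨⟨FreeGroup.of a • (y.1 : Q), y.2⟩, by
        show (FreeGroup.of a)⁻¹ • FreeGroup.of a • (y.1 : Q) ∈ S
        rw [inv_smul_smul]
        exact y.1.2⟩
      invFun := fun y => ⟨⟨(FreeGroup.of a)⁻¹ • (y.1 : Q), y.2⟩, by
        show FreeGroup.of a • (FreeGroup.of a)⁻¹ • (y.1 : Q) ∈ S
        rw [smul_inv_smul]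
        exact y.1.2⟩
      left_inv := fun y => Subtype.ext (Subtype.ext (inv_smul_smul _ _))
      right_inv := fun y => Subtype.ext (Subtype.ext (smul_inv_smul _ _)) }
  haveI : Fintype S := Fintype.ofFinite S
  let π : FreeGroup α →* Equiv.Perm S := FreeGroup.lift fun a => (e a).extendSubtype
  have hof : ∀ a (y : S) (hy : FreeGroup.of a • (y : Q) ∈ S),
      π (FreeGroup.of a) y = ⟨FreeGroup.of a • (y : Q), hy⟩ := fun a y hy => by
    rw [FreeGroup.lift_apply_of]
    exact Equiv.extendSubtype_apply_of_mem (e a) y hy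
  have hπ : ∀ x (y : S) (hy : letter x • (y : Q) ∈ S),
      π (letter x) y = ⟨letter x • (y : Q), hy⟩ := by
    rintro ⟨a, _ | _⟩ y hy
    · have e' : letter (a, false) = (FreeGroup.of a)⁻¹ := letter_flip (a, true)
      simp only [e'] at hy ⊢
      rw [map_inv, Equiv.Perm.inv_eq_iff_eq, hof _ _ (by rw [smul_inv_smul]; exact y.2)]
      exact Subtype.ext (smul_inv_smul _ _).symm
    · exact hof a y hy
  have hb' : b ∈ S := Set.mem_insert _ _
  set b' : S := ⟨b, hb'⟩
  have hpath : ∀ L : List (α × Bool), edges b L ⊆ E' →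
      ((π (FreeGroup.mk L) b' : S) : Q) = FreeGroup.mk L • b := by
    intro L
    induction L with
    | nil => intro _; rw [← FreeGroup.one_eq_mk, map_one, one_smul]; rfl
    | cons x L ih =>
      intro hsub
      rw [edges, Set.insert_subset_iff] at hsub
      have hy := ih hsub.2
      have hy' : letter x • ((π (FreeGroup.mk L) b' : S) : Q) ∈ S := by
        rw [hy]
        exact Set.mem_insert_of_mem _ (Or.inl ⟨_, hsub.1, rfl⟩)
      rw [mk_cons, map_mul, Equiv.Perm.mul_apply, hπ x _ hy', mul_smul, ← hy]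
  have hword : ∀ h : FreeGroup α, edges b h.toWord ⊆ E' → (π h b' = b' ↔ h ∈ H) := by
    intro h hh
    have := hpath h.toWord hh
    rw [FreeGroup.mk_toWord] at this
    rw [← hb, ← this, Subtype.ext_iff]
  refine ⟨(MulAction.stabilizer (Equiv.Perm S) b').comap π, ⟨?_⟩,
    fun h hh => (hword h ((hE h hh).trans Set.subset_union_left)).2 hh,
    fun hgK => hg ((hword g Set.subset_union_right).1 hgK)⟩
  rw [Subgroup.index_comap]
  exact Subgroup.FiniteIndex.index_ne_zero

/-- Finitely generated residually finite groups are Hopfian (Malcev). -/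
theorem bijective_of_surjective {G : Type*} [Group G] [Group.FG G] [Group.ResiduallyFinite G]
    {f : G →* G} (hf : Function.Surjective f) : Function.Bijective f := by
  refine ⟨(injective_iff_map_eq_one f).2 fun x hx => ?_, hf⟩
  by_contra hx1
  obtain ⟨N, hN⟩ := Group.exists_finiteIndexNormalSubgroup_notMem x hx1
  obtain ⟨T, hT⟩ := (Group.fg_def).1 (inferInstance : Group.FG G)
  haveI : Finite (G →* G ⧸ N.toSubgroup) := Finite.of_injective
    (fun φ : G →* G ⧸ N.toSubgroup => fun t : T => φ t) fun φ ψ h =>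
      MonoidHom.eq_of_eqOn_dense hT fun t ht => congrFun h ⟨t, ht⟩
  have hinj : Function.Injective fun φ : G →* G ⧸ N.toSubgroup => φ.comp f :=
    fun φ ψ h => (MonoidHom.cancel_right hf).1 h
  obtain ⟨ψ, hψ⟩ := Finite.injective_iff_surjective.1 hinj (QuotientGroup.mk' N.toSubgroup)
  refine hN ((QuotientGroup.eq_one_iff x).1 ?_)
  show QuotientGroup.mk' N.toSubgroup x = 1
  rw [← hψ]
  show ψ (f x) = 1
  rw [hx, map_one]

/-- Free groups are residually finite. -/
theorem residuallyFinite_free (α : Type*) : Group.ResiduallyFinite (FreeGroup α) := by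
  refine Group.residuallyFinite_iff_exists_finiteIndexNormalSubgroup.2 fun g hg => ?_
  obtain ⟨K, hK, -, hgK⟩ := exists_finiteIndex (H := (⊥ : Subgroup (FreeGroup α)))
    ⟨∅, by simp⟩ (mt Subgroup.mem_bot.1 hg)
  exact ⟨FiniteIndexNormalSubgroup.ofSubgroup K.normalCore,
    fun h => hgK (K.normalCore_le h)⟩

open scoped Classical in
/-- **Howson's theorem.** -/
theorem fg_inf {H K : Subgroup (FreeGroup α)} (hH : H.FG) (hK : K.FG) : (H ⊓ K).FG := by
  let Q := (FreeGroup α ⧸ H) × (FreeGroup α ⧸ K)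
  set b : Q := (((1 : FreeGroup α) : FreeGroup α ⧸ H), ((1 : FreeGroup α) : FreeGroup α ⧸ K))
  have hb : ∀ g : FreeGroup α, g • b = b ↔ g ∈ H ⊓ K := fun g => by
    rw [Subgroup.mem_inf, Prod.ext_iff, Prod.smul_fst, Prod.smul_snd,
      ← MulAction.mem_stabilizer_iff, ← MulAction.mem_stabilizer_iff,
      MulAction.stabilizer_quotient, MulAction.stabilizer_quotient]
  obtain ⟨EH, hEH, hEH'⟩ := exists_finite_edges b.1 hH fun g hg => by
    rw [← MulAction.mem_stabilizer_iff, MulAction.stabilizer_quotient]; exact hg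
  obtain ⟨EK, hEK, hEK'⟩ := exists_finite_edges b.2 hK fun g hg => by
    rw [← MulAction.mem_stabilizer_iff, MulAction.stabilizer_quotient]; exact hg
  set E : Set ((α × Bool) × Q) :=
    (fun z : ((α × Bool) × (FreeGroup α ⧸ H)) × ((α × Bool) × (FreeGroup α ⧸ K)) =>
      (z.1.1, (z.1.2, z.2.2))) '' EH ×ˢ EK
  -- a route to each point
  let r : Q → FreeGroup α := fun y => if h : ∃ g : FreeGroup α, g • b = y then h.choose else 1
  have hr : ∀ g : FreeGroup α, r (g • b) • b = g • b := fun g => by
    simp only [r]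
    rw [dif_pos ⟨g, rfl⟩]
    exact (⟨g, rfl⟩ : ∃ g' : FreeGroup α, g' • b = g • b).choose_spec
  set T : Set (FreeGroup α) := insert (r b)
    ((fun z => (r (letter z.1 • z.2))⁻¹ * (letter z.1 * r z.2)) ''
      {z ∈ E | ∃ g : FreeGroup α, g • b = z.2})
  have hTfin : T.Finite :=
    ((((hEH.prod hEK).image _).subset fun z hz => hz.1).image _).insert _
  refine (Subgroup.fg_iff _).2 ⟨T, le_antisymm ((Subgroup.closure_le _).2 ?_) fun g hg => ?_, hTfin⟩
  · rintro t (rfl | ⟨z, ⟨-, g, hg⟩, rfl⟩)
    · exact (hb _).1 (by simpa using hr 1)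
    · refine (hb _).1 ?_
      rw [mul_smul, mul_smul, inv_smul_eq_iff]
      show letter z.1 • r z.2 • b = r (letter z.1 • z.2) • b
      rw [← hg, hr, ← mul_smul, hr, mul_smul]
  have hedges : ∀ L : List (α × Bool), edges b.1 L ⊆ EH → edges b.2 L ⊆ EK →
      (r (FreeGroup.mk L • b))⁻¹ * FreeGroup.mk L ∈ Subgroup.closure T := by
    intro L
    induction L with
    | nil =>
      intro _ _
      rw [← FreeGroup.one_eq_mk, one_smul, mul_one]
      exact inv_mem (Subgroup.subset_closure (Set.mem_insert _ _))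
    | cons x L ih =>
      intro h1 h2
      rw [edges, Set.insert_subset_iff] at h1 h2
      have hz : (x, FreeGroup.mk L • b) ∈ E :=
        ⟨((x, FreeGroup.mk L • b.1), (x, FreeGroup.mk L • b.2)), ⟨h1.1, h2.1⟩, rfl⟩
      have ht : (r (letter x • FreeGroup.mk L • b))⁻¹ * (letter x * r (FreeGroup.mk L • b)) ∈
          Subgroup.closure T :=
        Subgroup.subset_closure (Set.mem_insert_of_mem _ ⟨_, ⟨hz, _, rfl⟩, rfl⟩)
      rw [mk_cons, mul_smul]
      have e := mul_mem ht (ih h1.2 h2.2)
      simpa [mul_assoc] using e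
  have h := hedges g.toWord (hEH' g hg.1) (hEK' g hg.2)
  rw [FreeGroup.mk_toWord, (hb g).2 hg] at h
  have := mul_mem (Subgroup.subset_closure (Set.mem_insert (r b) _) : r b ∈ Subgroup.closure T) h
  rwa [mul_inv_cancel_left] at this

end FA.FreeGroupTheorems

end
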