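import Mathlib.Data.Matrix.Mul
import Mathlib.Data.ZMod.Basic
import Mathlib.GroupTheory.FreeGroup.Reduce
import Mathlib.GroupTheory.Nilpotent
import Mathlib.GroupTheory.PGroup
import Mathlib.GroupTheory.QuotientGroup.Basic
import Mathlib.LinearAlgebra.Matrix.Defs
import Mathlib.Algebra.GroupWithZero.Units.Fintype
import Mathlib.Data.Matrix.Basic
import Mathlib.Tactic.NoncommRing

/-!
# Magnus's theorem

A product of powers of letters, adjacent letters being distinct, is detected by unitriangular
matrices over `ℤ / p ^ k`: its last column starts with the product of the exponents.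
-/

set_option autoImplicit false
set_option linter.style.haveILetI false

noncomputable section

open Matrix

namespace FA.FreeGroupTheorems

variable {α : Type*}

/-- The value of a list of powers of letters. -/
def value (w : List (α × ℤ)) : FreeGroup α := (w.map fun s => FreeGroup.of s.1 ^ s.2).prod

/-- Adjacent letters differ and no exponent is zero. -/
def Alt (w : List (α × ℤ)) : Prop := w.IsChain (fun s t => s.1 ≠ t.1) ∧ ∀ s ∈ w, s.2 ≠ 0

theorem exists_alt_mul {w : List (α × ℤ)} (hw : Alt w) (a : α) {e : ℤ} (he : e ≠ 0) :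
    ∃ w', Alt w' ∧ value w' = FreeGroup.of a ^ e * value w := by
  classical
  cases w with
  | nil => exact ⟨[(a, e)], ⟨List.isChain_singleton _, by simpa using he⟩, by simp [value]⟩
  | cons s t =>
    obtain ⟨hc, hne⟩ := hw
    by_cases hs : s.1 = a
    · rw [List.isChain_cons] at hc
      by_cases h0 : e + s.2 = 0
      · refine ⟨t, ⟨hc.2, fun x hx => hne x (List.mem_cons_of_mem _ hx)⟩, ?_⟩
        simp only [value, List.map_cons, List.prod_cons, hs, ← mul_assoc, ← zpow_add, h0, zpow_zero,
          one_mul]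
      · refine ⟨(a, e + s.2) :: t, ⟨List.isChain_cons.2 ⟨fun y hy => hs ▸ hc.1 y hy, hc.2⟩, ?_⟩, ?_⟩
        · intro x hx
          rcases List.mem_cons.1 hx with rfl | hx
          · exact h0
          · exact hne x (List.mem_cons_of_mem _ hx)
        · simp only [value, List.map_cons, List.prod_cons, hs, ← mul_assoc, ← zpow_add]
    · refine ⟨(a, e) :: s :: t, ⟨List.isChain_cons.2 ⟨?_, hc⟩, ?_⟩, by simp [value]⟩
      · intro y hy
        simp only [List.head?_cons, Option.mem_some_iff] at hy
        exact hy ▸ Ne.symm hs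
      · intro x hx
        rcases List.mem_cons.1 hx with rfl | hx
        · exact he
        · exact hne x hx

/-- Every element has such a form. -/
theorem exists_alt (g : FreeGroup α) : ∃ w, Alt w ∧ value w = g := by
  obtain ⟨L, rfl⟩ : ∃ L, FreeGroup.mk L = g := Quot.exists_rep g
  induction L with
  | nil => exact ⟨[], ⟨List.isChain_nil, by simp⟩, rfl⟩
  | cons x L ih =>
    obtain ⟨w, hw, hval⟩ := ih
    obtain ⟨a, b⟩ := x
    obtain ⟨e, he, hx⟩ : ∃ e : ℤ, e ≠ 0 ∧ FreeGroup.mk [(a, b)] = FreeGroup.of a ^ e := by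
      cases b
      · exact ⟨-1, by omega, by rw [zpow_neg_one]; rfl⟩
      · exact ⟨1, by omega, by rw [zpow_one]; rfl⟩
    obtain ⟨w', hw', hval'⟩ := exists_alt_mul hw a he
    exact ⟨w', hw', by rw [hval', hval, ← hx, FreeGroup.mul_mk, List.singleton_append]⟩

section Band

variable {R : Type*} [CommRing R] {n : ℕ}

/-- Vanishing below the `m`th superdiagonal. -/
def Band (m : ℕ) (A : Matrix (Fin n) (Fin n) R) : Prop :=
  ∀ i j : Fin n, (j : ℕ) < i + m → A i j = 0

theorem Band.mul {a b : ℕ} {A B : Matrix (Fin n) (Fin n) R} (hA : Band a A) (hB : Band b B) :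
    Band (a + b) (A * B) := fun i j hij => by
  rw [Matrix.mul_apply]
  refine Finset.sum_eq_zero fun k _ => ?_
  rcases lt_or_ge (k : ℕ) (i + a) with h | h
  · rw [hA i k h, zero_mul]
  · rw [hB k j (by omega), mul_zero]

theorem Band.add {m : ℕ} {A B : Matrix (Fin n) (Fin n) R} (hA : Band m A) (hB : Band m B) :
    Band m (A + B) := fun i j h => by rw [Matrix.add_apply, hA i j h, hB i j h, add_zero]

theorem Band.mono {a b : ℕ} (hab : a ≤ b) {A : Matrix (Fin n) (Fin n) R} (hA : Band b A) :
    Band a A := fun i j h => hA i j (by omega)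

theorem band_zero (m : ℕ) : Band m (0 : Matrix (Fin n) (Fin n) R) := fun _ _ _ => rfl

theorem band_one : Band 0 (1 : Matrix (Fin n) (Fin n) R) := fun i j h =>
  Matrix.one_apply_ne fun e => by rw [e] at h; omega

theorem Band.smul {m : ℕ} {A : Matrix (Fin n) (Fin n) R} (hA : Band m A) (c : R) :
    Band m (c • A) := fun i j h => by rw [Matrix.smul_apply, hA i j h, smul_zero]

variable (R n) in
/-- The upper unitriangular units. -/
def unitriangular : Subgroup (Matrix (Fin n) (Fin n) R)ˣ where
  carrier := {g | Band 1 ((g : Matrix (Fin n) (Fin n) R) - 1) ∧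
    Band 1 ((↑g⁻¹ : Matrix (Fin n) (Fin n) R) - 1)}
  one_mem' := by
    simp only [Set.mem_ofPred_eq, inv_one, Units.val_one, sub_self]
    exact ⟨band_zero 1, band_zero 1⟩
  mul_mem' := by
    have key : ∀ A B : Matrix (Fin n) (Fin n) R, Band 1 (A - 1) → Band 1 (B - 1) →
        Band 1 (A * B - 1) := fun A B hA hB => by
      have e : A * B - 1 = (A - 1) * (B - 1) + ((A - 1) + (B - 1)) := by noncomm_ring
      rw [e]
      exact ((hA.mul hB).mono (Nat.le_add_left 1 1)).add (hA.add hB)
    rintro g h ⟨hg, hg'⟩ ⟨hh, hh'⟩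
    refine ⟨?_, ?_⟩
    · rw [Units.val_mul]
      exact key _ _ hg hh
    · rw [_root_.mul_inv_rev, Units.val_mul]
      exact key _ _ hh' hg'
  inv_mem' := fun {g} hg => ⟨hg.2, by rw [inv_inv]; exact hg.1⟩

/-- Over `ℤ / p ^ k` the unitriangular group is a `p`-group. -/
theorem isPGroup_unitriangular (p k : ℕ) :
    IsPGroup p (unitriangular (ZMod (p ^ k)) n) := by
  intro g
  have hpow : ∀ m, 1 ≤ m → ∀ A : Matrix (Fin n) (Fin n) (ZMod (p ^ k)), Band m (A - 1) →
      Band (m + 1) (A ^ (p ^ k) - 1) := by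
    intro m hm A hA
    have hlin : ∀ j : ℕ, Band (m + 1) (A ^ j - 1 - (j : ZMod (p ^ k)) • (A - 1)) := by
      intro j
      induction j with
      | zero => simpa using band_zero (m + 1)
      | succ j ih =>
        have hj : Band m (A ^ j - 1) := by
          have e : A ^ j - 1 = (A ^ j - 1 - (j : ZMod (p ^ k)) • (A - 1)) +
              (j : ZMod (p ^ k)) • (A - 1) := by abel
          rw [e]
          exact (ih.mono (Nat.le_succ m)).add (hA.smul _)
        have e : A ^ (j + 1) - 1 - ((j + 1 : ℕ) : ZMod (p ^ k)) • (A - 1) =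
            (A ^ j - 1) * (A - 1) + (A ^ j - 1 - (j : ZMod (p ^ k)) • (A - 1)) := by
          rw [pow_succ, Nat.cast_succ, add_smul, one_smul]
          noncomm_ring
        rw [e]
        exact ((hj.mul hA).mono (by omega)).add ih
    have := hlin (p ^ k)
    rwa [ZMod.natCast_self, zero_smul, sub_zero] at this
  have hiter : ∀ t : ℕ, Band (t + 1)
      (((g : (Matrix (Fin n) (Fin n) (ZMod (p ^ k)))ˣ) : Matrix (Fin n) (Fin n) (ZMod (p ^ k))) ^
        ((p ^ k) ^ t) - 1) := by
    intro t
    induction t with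
    | zero => rw [pow_zero, pow_one]; exact g.2.1
    | succ t ih =>
      rw [pow_succ (p ^ k) t, pow_mul]
      exact hpow (t + 1) (Nat.le_add_left 1 t) _ ih
  refine ⟨k * n, Subtype.ext (Units.ext ?_)⟩
  simp only [SubgroupClass.coe_pow, Units.val_pow_eq_pow_val, OneMemClass.coe_one, Units.val_one]
  rw [pow_mul]
  refine sub_eq_zero.1 ?_
  ext i j
  exact hiter n i j (by omega)

end Band

section Representation

variable (w : List (α × ℤ)) (R : Type*) [CommRing R]

open scoped Classical in
/-- The superdiagonal carrying one letter. -/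
def diag (a : α) : Matrix (Fin (w.length + 1)) (Fin (w.length + 1)) R :=
  fun i j => if (j : ℕ) = i + 1 ∧ ∃ h : (i : ℕ) < w.length, (w[(i : ℕ)]).1 = a then 1 else 0

variable {w} (hw : Alt w)

include hw

theorem diag_mul_diag (a : α) : diag w R a * diag w R a = 0 := by
  ext i j
  rw [Matrix.mul_apply]
  refine Finset.sum_eq_zero fun l _ => ?_
  simp only [diag]
  split_ifs with h1 h2 <;> try simp
  obtain ⟨hl, -, h1'⟩ := h1.1, h1.2
  obtain ⟨hj, h2'⟩ := h2.2
  obtain ⟨hi, h1''⟩ := h1.2
  have := List.isChain_iff_getElem.1 hw.1 i (by omega)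
  refine absurd ?_ this
  rw [h1'']
  simp only [show (i : ℕ) + 1 = l by omega]
  exact h2'.symm

/-- The unit attached to a letter and an exponent. -/
def pow1 (a : α) : Multiplicative ℤ →*
    (Matrix (Fin (w.length + 1)) (Fin (w.length + 1)) R)ˣ :=
  MonoidHom.toHomUnits
    { toFun := fun e => 1 + ((e.toAdd : ℤ) : R) • diag w R a
      map_one' := by simp
      map_mul' := fun x y => by
        rw [toAdd_mul, Int.cast_add, add_smul, mul_add, add_mul, add_mul, smul_mul_smul_comm,
          diag_mul_diag R hw a, smul_zero, one_mul, mul_one, add_zero, one_mul]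
        abel }

/-- The representation. -/
def rep : FreeGroup α →* (Matrix (Fin (w.length + 1)) (Fin (w.length + 1)) R)ˣ :=
  FreeGroup.lift fun a => pow1 R hw a (Multiplicative.ofAdd 1)

theorem rep_of_zpow (a : α) (e : ℤ) :
    ((rep R hw (FreeGroup.of a ^ e) : (Matrix (Fin (w.length + 1)) (Fin (w.length + 1)) R)ˣ) :
      Matrix (Fin (w.length + 1)) (Fin (w.length + 1)) R) = 1 + (e : R) • diag w R a := by
  rw [rep, map_zpow, FreeGroup.lift_apply_of, ← map_zpow, ← ofAdd_zsmul]
  simp [pow1, MonoidHom.toHomUnits]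

theorem rep_mem (g : FreeGroup α) : rep R hw g ∈ unitriangular R (w.length + 1) := by
  have hband : ∀ a (e : ℤ), Band 1 ((e : R) • diag w R a) := fun a e =>
    Band.smul (fun i j h => if_neg fun h' => by omega) _
  induction g using FreeGroup.induction_on with
  | C1 => rw [map_one]; exact one_mem _
  | of a =>
    refine ⟨?_, ?_⟩
    · rw [← zpow_one (FreeGroup.of a), rep_of_zpow, add_sub_cancel_left]
      exact hband a 1
    · rw [← map_inv, ← zpow_neg_one, rep_of_zpow, add_sub_cancel_left]
      exact hband a (-1)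
  | inv_of a ih => rw [map_inv]; exact inv_mem ih
  | mul g h hg hh => rw [map_mul]; exact mul_mem hg hh

/-- The last column. -/
theorem rep_column (j : ℕ) : ∀ k, k + j = w.length → ∀ i : Fin (w.length + 1), (i : ℕ) ≤ k →
    ((rep R hw (value (w.drop k)) : (Matrix (Fin (w.length + 1)) (Fin (w.length + 1)) R)ˣ) :
      Matrix (Fin (w.length + 1)) (Fin (w.length + 1)) R) i (Fin.last _) =
      if (i : ℕ) = k then (((w.drop k).map Prod.snd).prod : R) else 0 := by
  induction j with
  | zero =>
    intro k hk i hi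
    rw [List.drop_of_length_le (by omega)]
    simp only [value, List.map_nil, List.prod_nil, map_one, Units.val_one, Int.cast_one,
      Matrix.one_apply, Fin.ext_iff, Fin.val_last]
    split_ifs <;> first | rfl | omega
  | succ j ih =>
    intro k hk i hi
    have hkl : k < w.length := by omega
    rw [List.drop_eq_getElem_cons hkl]
    simp only [value, List.map_cons, List.prod_cons, map_mul, Units.val_mul, rep_of_zpow,
      add_mul, one_mul, Matrix.add_apply, Matrix.smul_mul, Matrix.smul_apply, Int.cast_mul,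
      smul_eq_mul]
    rw [← value, ih (k + 1) (by omega) i (by omega), if_neg (by omega : (i : ℕ) ≠ k + 1), zero_add,
      Matrix.mul_apply, Finset.sum_eq_single ⟨i + 1, by omega⟩]
    · rw [ih (k + 1) (by omega) ⟨i + 1, by omega⟩ (by show (i : ℕ) + 1 ≤ k + 1; omega)]
      by_cases hik : (i : ℕ) = k
      · subst hik
        simp only [diag, if_pos]
        rw [if_pos ⟨trivial, hkl, trivial⟩, one_mul]
      · rw [if_neg hik, if_neg (by show (i : ℕ) + 1 ≠ k + 1; omega), mul_zero, mul_zero]
    · intro l _ hl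
      simp only [diag]
      rw [if_neg fun h => hl (Fin.ext h.1), zero_mul]
    · exact fun h => absurd (Finset.mem_univ _) h

end Representation

/-- **Free groups are residually finite `p`-groups.** -/
theorem exists_pGroup_quotient (p : ℕ) [hp : Fact p.Prime] {g : FreeGroup α} (hg : g ≠ 1) :
    ∃ N : Subgroup (FreeGroup α), ∃ _ : N.Normal, N.FiniteIndex ∧
      IsPGroup p (FreeGroup α ⧸ N) ∧ g ∉ N := by
  obtain ⟨w, hw, rfl⟩ := exists_alt g
  set P := (w.map Prod.snd).prod
  have hP : P ≠ 0 := List.prod_ne_zero fun h => by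
    obtain ⟨s, hs, hs'⟩ := List.mem_map.1 h
    exact hw.2 s hs hs'
  set k := P.natAbs
  haveI : NeZero (p ^ k) := ⟨pow_ne_zero _ hp.out.ne_zero⟩
  set φ := rep (ZMod (p ^ k)) hw
  refine ⟨φ.ker, inferInstance, ⟨?_⟩, ?_, fun h => ?_⟩
  · rw [Subgroup.index_ker]
    exact Nat.card_pos.ne'
  · refine IsPGroup.of_equiv ?_ (QuotientGroup.quotientKerEquivRange φ).symm
    refine (isPGroup_unitriangular (n := w.length + 1) p k).to_le ?_
    rintro - ⟨x, rfl⟩
    exact rep_mem _ hw x
  have hlen : w.length ≠ 0 := fun h0 => hg (by rw [List.length_eq_zero_iff.1 h0]; rfl)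
  have h1 := rep_column (ZMod (p ^ k)) hw w.length 0 (zero_add _) 0 le_rfl
  rw [List.drop_zero, MonoidHom.mem_ker.1 h, Units.val_one,
    Matrix.one_apply_ne (fun e => hlen (congrArg Fin.val e).symm),
    if_pos (Fin.val_zero (w.length + 1))] at h1
  have h2 : ((p : ℤ) ^ k) ∣ P := by
    have := (ZMod.intCast_zmod_eq_zero_iff_dvd P (p ^ k)).1 h1.symm
    exact_mod_cast this
  have h3 : p ^ k ≤ P.natAbs := Nat.le_of_dvd (Int.natAbs_pos.2 hP) (by
    simpa [Int.natAbs_pow] using Int.natAbs_dvd_natAbs.2 h2)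
  exact absurd h3 (not_le.2 (Nat.lt_pow_self hp.out.one_lt))

/-- **Magnus's theorem.** -/
theorem iInf_lowerCentralSeries_eq_bot (α : Type*) :
    ⨅ n, (⊤ : Subgroup (FreeGroup α)).lowerCentralSeries n = ⊥ := by
  refine (Subgroup.eq_bot_iff_forall _).2 fun g hg => ?_
  by_contra hg1
  haveI : Fact (Nat.Prime 2) := ⟨Nat.prime_two⟩
  obtain ⟨N, hN, hfin, hp, hgN⟩ := exists_pGroup_quotient 2 hg1
  haveI := hfin
  obtain ⟨n, hn⟩ := Subgroup.nilpotent_iff_lowerCentralSeries.1 hp.isNilpotent
  rw [← Subgroup.map_top_of_surjective (QuotientGroup.mk' N) (QuotientGroup.mk'_surjective N),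
    ← Subgroup.map_lowerCentralSeries, Subgroup.map_eq_bot_iff, QuotientGroup.ker_mk'] at hn
  exact hgN (hn (Subgroup.mem_iInf.1 hg n))

end FA.FreeGroupTheorems

end
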