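import Mathlib.GroupTheory.FreeGroup.Reduce
import Mathlib.GroupTheory.Finiteness
import Mathlib.GroupTheory.GroupAction.Quotient
import Mathlib.GroupTheory.ResiduallyFinite
import Mathlib.Logic.Equiv.Fintype

/-!
# Paths of words

A word traces a path from every point the free group acts on, and cancellation only shortens it.
So the reduced words of a finitely generated stabiliser stay inside a finite graph.
-/

set_option autoImplicit false
set_option linter.style.haveILetI false

noncomputable section

open FreeGroup

namespace FA.FreeGroupTheorems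

variable {α X : Type*} [MulAction (FreeGroup α) X]

/-- The value of one letter. -/
def letter (x : α × Bool) : FreeGroup α := FreeGroup.mk [x]

/-- The edges of the path of a word, read from the right. -/
def edges (b : X) : List (α × Bool) → Set ((α × Bool) × X)
  | [] => ∅
  | x :: L => insert (x, FreeGroup.mk L • b) (edges b L)

/-- Reverse an edge. -/
def flipEdge (e : (α × Bool) × X) : (α × Bool) × X := ((e.1.1, !e.1.2), letter e.1 • e.2)

theorem mk_cons (x : α × Bool) (L : List (α × Bool)) :
    FreeGroup.mk (x :: L) = letter x * FreeGroup.mk L := by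
  rw [letter, mul_mk, List.singleton_append]

theorem letter_flip (x : α × Bool) : letter (x.1, !x.2) = (letter x)⁻¹ := by
  rw [letter, letter, inv_mk]
  rfl

theorem edges_finite (b : X) : ∀ L : List (α × Bool), (edges b L).Finite
  | [] => Set.finite_empty
  | _ :: L => (edges_finite b L).insert _

theorem edges_append (b : X) : ∀ L₁ L₂ : List (α × Bool),
    edges b (L₁ ++ L₂) = edges (FreeGroup.mk L₂ • b) L₁ ∪ edges b L₂
  | [], L₂ => by simp [edges]
  | x :: L₁, L₂ => by
    rw [List.cons_append, edges, edges, edges_append b L₁ L₂, Set.insert_union, smul_smul, mul_mk]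

theorem edges_red {b : X} {L L' : List (α × Bool)} (h : Red L L') :
    edges b L' ⊆ edges b L := by
  induction h with
  | refl => exact subset_rfl
  | @tail M N _ hstep ih =>
    refine subset_trans ?_ ih
    cases hstep with
    | @not L₁ L₂ x c =>
      have e : FreeGroup.mk ((x, c) :: (x, !c) :: L₂) = FreeGroup.mk L₂ := by
        rw [mk_cons, mk_cons, letter_flip (x, c), mul_inv_cancel_left]
      rw [edges_append, edges_append, e]
      exact Set.union_subset_union_right _
        ((Set.subset_insert _ _).trans (Set.subset_insert _ _))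

theorem edges_invRev (b : X) : ∀ L : List (α × Bool),
    edges (FreeGroup.mk L • b) (invRev L) = flipEdge '' edges b L
  | [] => by simp [edges, invRev]
  | x :: L => by
    have e : invRev (x :: L) = invRev L ++ [(x.1, !x.2)] := by simp [invRev]
    have e' : FreeGroup.mk [(x.1, !x.2)] • FreeGroup.mk (x :: L) • b = FreeGroup.mk L • b := by
      rw [show FreeGroup.mk [(x.1, !x.2)] = letter (x.1, !x.2) from rfl, smul_smul, mk_cons,
        letter_flip, inv_mul_cancel_left]
    rw [e, edges_append, e', edges_invRev b L, edges, edges, edges, ← one_eq_mk, one_smul,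
      Set.image_insert_eq]
    simp only [flipEdge, mk_cons, mul_smul]
    rw [Set.union_insert, Set.union_empty]

variable [DecidableEq α]

/-- The reduced words of a finitely generated group fixing a point use finitely many edges. -/
theorem exists_finite_edges (b : X) {H : Subgroup (FreeGroup α)} (hfg : H.FG)
    (hb : ∀ h ∈ H, h • b = b) :
    ∃ E : Set ((α × Bool) × X), E.Finite ∧ ∀ h ∈ H, edges b h.toWord ⊆ E := by
  obtain ⟨T, hT⟩ := hfg
  set E₀ : Set ((α × Bool) × X) := ⋃ t ∈ T, edges b t.toWord
  refine ⟨E₀ ∪ flipEdge '' E₀, ?_, fun h hh => ?_⟩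
  · have h0 : E₀.Finite := T.finite_toSet.biUnion fun t _ => edges_finite b t.toWord
    exact h0.union (h0.image _)
  suffices key : ∃ L, FreeGroup.mk L = h ∧ edges b L ⊆ E₀ ∪ flipEdge '' E₀ by
    obtain ⟨L, rfl, hL⟩ := key
    rw [toWord_mk]
    exact (edges_red reduce.red).trans hL
  have hsub : Subgroup.closure (T : Set (FreeGroup α)) ≤ H := hT.le
  rw [← hT] at hh
  induction hh using Subgroup.closure_induction with
  | mem t ht => exact ⟨t.toWord, mk_toWord, fun e he =>
      Or.inl (Set.mem_biUnion (Finset.mem_coe.1 ht) he)⟩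
  | one => exact ⟨[], rfl, Set.empty_subset _⟩
  | mul g k hg hk ihg ihk =>
    obtain ⟨L₁, rfl, h₁⟩ := ihg
    obtain ⟨L₂, rfl, h₂⟩ := ihk
    refine ⟨L₁ ++ L₂, mul_mk.symm, ?_⟩
    rw [edges_append, hb _ (hsub hk)]
    exact Set.union_subset h₁ h₂
  | inv g hg ihg =>
    obtain ⟨L, rfl, hL⟩ := ihg
    refine ⟨invRev L, inv_mk.symm, ?_⟩
    have e := edges_invRev b L
    rw [hb _ (hsub hg)] at e
    rw [e]
    rintro - ⟨x, hx, rfl⟩
    rcases hL hx with h0 | ⟨y, hy, rfl⟩
    · exact Or.inr ⟨x, h0, rfl⟩
    · refine Or.inl ?_
      convert hy using 1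
      simp [flipEdge, letter_flip]

end FA.FreeGroupTheorems

end
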